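/-
Ideals with a given basis of the quotient are the same as their coordinate maps; functoriality.
-/
import Fermat.Agent.Jacobian.Core.Hilb

set_option autoImplicit false

universe u

open TensorProduct

noncomputable section

namespace Fermat.Agent.Jacobian.HilbChart

open Fermat.Agent.Jacobian

variable {k : Type u} [Field k] {R : Type u} [CommRing R] [Algebra k R] {g : ℕ} (E : Fin g → R)
variable {B : Type u} [CommRing B] [Algebra k B]

/-- The combination of the vectors `E i` with coefficients `v i`. -/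
def comb : (Fin g → B) →ₗ[B] B ⊗[k] R where
  toFun v := ∑ i, v i ⊗ₜ[k] E i
  map_add' v w := by simp [add_tmul, Finset.sum_add_distrib]
  map_smul' b v := by simp [Finset.smul_sum, smul_tmul']

theorem comb_apply (v : Fin g → B) : comb E v = ∑ i, v i ⊗ₜ[k] E i := rfl

/-- The conditions on the coordinate map of an ideal with basis `E` of the quotient. -/
structure IsHilbMap (φ : R →ₗ[k] Fin g → B) : Prop where
  apply_basis : ∀ j, φ (E j) = Pi.single j 1
  apply_mul : ∀ r s, φ (r * s) = ∑ i, φ s i • φ (r * E i)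

/-- The ideal attached to a coordinate map. -/
def mapIdeal (φ : R →ₗ[k] Fin g → B) : Ideal (B ⊗[k] R) :=
  Ideal.span (Set.range fun r => (1 : B) ⊗ₜ[k] r - comb E (φ r))

variable {E}

theorem gen_mem_mapIdeal (φ : R →ₗ[k] Fin g → B) (r : R) :
    (1 : B) ⊗ₜ[k] r - comb E (φ r) ∈ mapIdeal E φ :=
  Ideal.subset_span ⟨r, rfl⟩

theorem sub_comb_mem_mapIdeal (φ : R →ₗ[k] Fin g → B) (z : B ⊗[k] R) :
    z - comb E (φ.liftBaseChange B z) ∈ mapIdeal E φ := by
  induction z using TensorProduct.induction_on with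
  | zero => simp
  | tmul b r =>
      rw [LinearMap.liftBaseChange_tmul, map_smul,
        show b ⊗ₜ[k] r = b • ((1 : B) ⊗ₜ[k] r) by rw [smul_tmul', smul_eq_mul, mul_one],
        ← smul_sub]
      exact Submodule.smul_of_tower_mem _ b (gen_mem_mapIdeal φ r)
  | add x y hx hy =>
      rw [map_add, map_add, add_sub_add_comm]
      exact add_mem hx hy

namespace IsHilbMap

variable {φ : R →ₗ[k] Fin g → B} (hφ : IsHilbMap E φ)
include hφ

theorem lift_comb (v : Fin g → B) : φ.liftBaseChange B (comb E v) = v := by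
  rw [comb_apply, map_sum]
  simp only [LinearMap.liftBaseChange_tmul, hφ.apply_basis, ← Pi.single_smul', smul_eq_mul,
    mul_one]
  exact Finset.univ_sum_single v

theorem mem_mapIdeal_iff (z : B ⊗[k] R) : z ∈ mapIdeal E φ ↔ φ.liftBaseChange B z = 0 := by
  refine ⟨fun hz => ?_, fun hz => by simpa [hz] using sub_comb_mem_mapIdeal (E := E) φ z⟩
  suffices h : ∀ y, φ.liftBaseChange B (y * z) = 0 by simpa using h 1
  induction hz using Submodule.span_induction with
  | mem x hx =>
      obtain ⟨r, rfl⟩ := hx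
      intro y
      induction y using TensorProduct.induction_on with
      | zero => simp
      | tmul b s =>
          rw [mul_sub, comb_apply, Finset.mul_sum, map_sub, map_sum, sub_eq_zero,
            Algebra.TensorProduct.tmul_mul_tmul, mul_one, LinearMap.liftBaseChange_tmul,
            hφ.apply_mul, Finset.smul_sum]
          refine Finset.sum_congr rfl fun i _ => ?_
          rw [Algebra.TensorProduct.tmul_mul_tmul, LinearMap.liftBaseChange_tmul, smul_smul]
      | add x y hx hy => rw [add_mul, map_add, hx, hy, add_zero]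
  | zero => simp
  | add x y _ _ hx hy => intro w; rw [mul_add, map_add, hx w, hy w, add_zero]
  | smul a x _ hx => intro w; rw [smul_eq_mul, ← mul_assoc]; exact hx _

theorem isHilb : IsHilb E (mapIdeal E φ) := by
  refine ⟨fun v w h => ?_, fun x => ?_⟩
  · have h' : comb E v - comb E w ∈ mapIdeal E φ := (Ideal.Quotient.eq).mp h
    rwa [hφ.mem_mapIdeal_iff, map_sub, hφ.lift_comb, hφ.lift_comb, sub_eq_zero] at h'
  · obtain ⟨z, rfl⟩ := Ideal.Quotient.mk_surjective x
    exact ⟨φ.liftBaseChange B z,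
      ((Ideal.Quotient.eq).mpr (sub_comb_mem_mapIdeal (E := E) φ z)).symm⟩

end IsHilbMap

section Coord

variable {J : Ideal (B ⊗[k] R)} (hJ : IsHilb E J)
include hJ

theorem comb_injective_mod {v w : Fin g → B} (h : comb E v - comb E w ∈ J) : v = w :=
  hJ.1 ((Ideal.Quotient.eq).mpr h)

theorem eq_zero_of_comb_mem {v : Fin g → B} (h : comb E v ∈ J) : v = 0 :=
  comb_injective_mod hJ (by rwa [map_zero, sub_zero])

theorem exists_sub_comb_mem (z : B ⊗[k] R) : ∃ v, z - comb E v ∈ J := by
  obtain ⟨v, hv⟩ := hJ.2 (Ideal.Quotient.mk J z)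
  exact ⟨v, (Ideal.Quotient.eq).mp hv.symm⟩

/-- The coordinate map of an ideal with basis `E` of the quotient. -/
def coord : R →ₗ[k] Fin g → B where
  toFun r := (exists_sub_comb_mem hJ ((1 : B) ⊗ₜ[k] r)).choose
  map_add' r s := by
    refine comb_injective_mod hJ ?_
    have h1 := (exists_sub_comb_mem hJ ((1 : B) ⊗ₜ[k] r)).choose_spec
    have h2 := (exists_sub_comb_mem hJ ((1 : B) ⊗ₜ[k] s)).choose_spec
    have h3 := (exists_sub_comb_mem hJ ((1 : B) ⊗ₜ[k] (r + s))).choose_spec
    convert J.sub_mem (J.add_mem h1 h2) h3 using 1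
    rw [map_add, tmul_add]
    abel
  map_smul' a r := by
    refine comb_injective_mod hJ ?_
    have h1 := (exists_sub_comb_mem hJ ((1 : B) ⊗ₜ[k] r)).choose_spec
    have h2 := (exists_sub_comb_mem hJ ((1 : B) ⊗ₜ[k] (a • r))).choose_spec
    convert J.sub_mem (Submodule.smul_of_tower_mem J a h1) h2 using 1
    rw [RingHom.id_apply, (comb E).map_smul_of_tower, smul_sub, tmul_smul]
    abel

theorem sub_comb_coord_mem (r : R) : (1 : B) ⊗ₜ[k] r - comb E (coord hJ r) ∈ J :=
  (exists_sub_comb_mem hJ ((1 : B) ⊗ₜ[k] r)).choose_spec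

theorem coord_unique {r : R} {v : Fin g → B} (h : (1 : B) ⊗ₜ[k] r - comb E v ∈ J) :
    v = coord hJ r := by
  refine comb_injective_mod hJ ?_
  convert J.sub_mem (sub_comb_coord_mem hJ r) h using 1
  abel

theorem isHilbMap_coord : IsHilbMap E (coord hJ) := by
  refine ⟨fun j => (coord_unique hJ ?_).symm, fun r s => (coord_unique hJ ?_).symm⟩
  · rw [comb_apply, Finset.sum_eq_single j (fun b _ hb => by rw [Pi.single_eq_of_ne hb, zero_tmul])
      (by simp), Pi.single_eq_same, sub_self]
    exact J.zero_mem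
  · have h1 := J.mul_mem_left ((1 : B) ⊗ₜ[k] r) (sub_comb_coord_mem hJ s)
    have h2 : ∑ i, coord hJ s i • ((1 : B) ⊗ₜ[k] (r * E i) - comb E (coord hJ (r * E i))) ∈ J :=
      J.sum_mem fun i _ => Submodule.smul_of_tower_mem J _ (sub_comb_coord_mem hJ _)
    convert J.add_mem h1 h2 using 1
    rw [map_sum, mul_sub, comb_apply, Finset.mul_sum]
    simp only [map_smul, smul_sub, Finset.sum_sub_distrib, Algebra.TensorProduct.tmul_mul_tmul,
      one_mul, smul_tmul', smul_eq_mul, mul_one]
    abel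

theorem eq_mapIdeal : J = mapIdeal E (coord hJ) := by
  refine le_antisymm (fun z hz => ?_) (Ideal.span_le.mpr ?_)
  · have hle : mapIdeal E (coord hJ) ≤ J := Ideal.span_le.mpr (by
      rintro _ ⟨r, rfl⟩; exact sub_comb_coord_mem hJ r)
    have h1 := sub_comb_mem_mapIdeal (E := E) (coord hJ) z
    have h2 := eq_zero_of_comb_mem hJ (v := (coord hJ).liftBaseChange B z)
      (by simpa using J.sub_mem hz (hle h1))
    rwa [h2, map_zero, sub_zero] at h1
  · rintro _ ⟨r, rfl⟩
    exact sub_comb_coord_mem hJ r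

theorem mem_iff_lift_coord (z : B ⊗[k] R) : z ∈ J ↔ (coord hJ).liftBaseChange B z = 0 := by
  rw [← (isHilbMap_coord hJ).mem_mapIdeal_iff, ← eq_mapIdeal hJ]

/-- Every element satisfies a monic equation modulo `J`. -/
theorem exists_monic_aeval_mem (x : R) :
    ∃ m : Polynomial B, m.Monic ∧ Polynomial.aeval ((1 : B) ⊗ₜ[k] x) m ∈ J := by
  have : Module.Finite B ((B ⊗[k] R) ⧸ J) :=
    Module.Finite.of_surjective ((Ideal.Quotient.mkₐ B J).toLinearMap ∘ₗ comb E) hJ.2
  obtain ⟨m, hm, hm0⟩ := IsIntegral.of_finite B (Ideal.Quotient.mkₐ B J ((1 : B) ⊗ₜ[k] x))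
  refine ⟨m, hm, ?_⟩
  rw [← Polynomial.aeval_def, Polynomial.aeval_algHom_apply] at hm0
  exact Ideal.Quotient.eq_zero_iff_mem.mp hm0

end Coord

section Push

variable {B' : Type u} [CommRing B'] [Algebra k B'] (ψ : B →ₐ[k] B')

/-- The map `B ⊗ R → B' ⊗ R`. -/
abbrev push : B ⊗[k] R →ₐ[k] B' ⊗[k] R := Algebra.TensorProduct.map ψ (AlgHom.id k R)

theorem push_smul (b : B) (z : B ⊗[k] R) : push ψ (b • z) = ψ b • push ψ z := by
  induction z using TensorProduct.induction_on with
  | zero => simp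
  | tmul c r => simp [smul_tmul']
  | add x y hx hy => simp [smul_add, hx, hy]

/-- Composition of a coordinate map with a change of rings. -/
def pushMap (φ : R →ₗ[k] Fin g → B) : R →ₗ[k] Fin g → B' :=
  LinearMap.pi fun i => ψ.toLinearMap ∘ₗ (LinearMap.proj i ∘ₗ φ)

theorem pushMap_apply (φ : R →ₗ[k] Fin g → B) (r : R) (i : Fin g) :
    pushMap ψ φ r i = ψ (φ r i) := rfl

theorem push_comb (v : Fin g → B) : push ψ (comb E v) = comb E fun i => ψ (v i) := by
  simp [comb_apply, map_sum]

theorem IsHilbMap.push {φ : R →ₗ[k] Fin g → B} (hφ : IsHilbMap E φ) :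
    IsHilbMap E (pushMap ψ φ) := by
  refine ⟨fun j => funext fun i => ?_, fun r s => funext fun i => ?_⟩
  · rw [pushMap_apply, hφ.apply_basis]
    rcases eq_or_ne i j with rfl | h
    · simp
    · simp [Pi.single_eq_of_ne h]
  · simp [pushMap_apply, hφ.apply_mul r s, Finset.sum_apply]

theorem mapIdeal_push (φ : R →ₗ[k] Fin g → B) :
    (mapIdeal E φ).map (push ψ) = mapIdeal E (pushMap ψ φ) := by
  rw [mapIdeal, Ideal.map_span, mapIdeal]
  congr 1
  rw [← Set.range_comp]
  refine congrArg Set.range (funext fun r => ?_)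
  rw [Function.comp_apply, map_sub, push_comb, Algebra.TensorProduct.map_tmul, map_one]
  rfl

theorem isHilb_map {J : Ideal (B ⊗[k] R)} (hJ : IsHilb E J) : IsHilb E (J.map (push ψ)) := by
  rw [eq_mapIdeal hJ, mapIdeal_push]
  exact ((isHilbMap_coord hJ).push ψ).isHilb

theorem mapIdeal_injective {φ φ' : R →ₗ[k] Fin g → B} (hφ : IsHilbMap E φ)
    (h : mapIdeal E φ = mapIdeal E φ') : φ = φ' := by
  refine LinearMap.ext fun r => comb_injective_mod hφ.isHilb ?_
  have h1 := gen_mem_mapIdeal (E := E) φ r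
  have h2 : (1 : B) ⊗ₜ[k] r - comb E (φ' r) ∈ mapIdeal E φ := h ▸ gen_mem_mapIdeal (E := E) φ' r
  convert (mapIdeal E φ).sub_mem h2 h1 using 1
  abel

end Push

end Fermat.Agent.Jacobian.HilbChart
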