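/-
Dual bases of ideals that survive changes of the ring of parameters.
-/
import Fermat.Agent.Jacobian.HilbChart.Coord

set_option autoImplicit false

universe u

open TensorProduct

noncomputable section

namespace Fermat.Agent.Jacobian.HilbChart

open Fermat.Agent.Jacobian

/-- Generators `f` of an ideal of the `B`-algebra `A` with a matrix `e` which is the dual basis
idempotent: `e l l` sum to one, and a `B`-linear `τ` recovering `e` from the products. -/
structure Frame (B : Type u) {A : Type u} [CommRing B] [CommRing A] [Algebra B A]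
    (J : Ideal A) where
  ι : Type u
  [fintype : Fintype ι]
  f : ι → A
  e : ι → ι → A
  τ : ι → A →ₗ[B] A
  span_eq : J = Ideal.span (Set.range f)
  sum_diag : ∑ l, e l l = 1
  cross : ∀ l i, e l i * f l = e l l * f i
  sum_mul : ∀ i, ∑ l, e l i * f l = f i
  τ_mul : ∀ l i y, τ l (y * f i) = e l i * y

attribute [instance] Frame.fintype

namespace Frame

variable {B A : Type u} [CommRing B] [CommRing A] [Algebra B A] {J : Ideal A} (F : Frame B J)

theorem ker_eq (a : F.ι → A) (ha : ∑ i, a i * F.f i = 0) (l : F.ι) :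
    ∑ i, F.e l i * a i = 0 := by
  simp_rw [← F.τ_mul]
  rw [← map_sum, ha, map_zero]

theorem mem (i : F.ι) : F.f i ∈ J :=
  (le_of_eq F.span_eq.symm) (Ideal.subset_span ⟨i, rfl⟩)

theorem diag_mul_eq_zero {l : F.ι} {y : A} (hy : y * F.f l = 0) : F.e l l * y = 0 := by
  rw [← F.τ_mul, hy, map_zero]

include F in
theorem locPrincipalRegular : Fermat.Agent.Jacobian.LocPrincipalRegular J := by
  intro q hq
  obtain ⟨l, hl⟩ : ∃ l, F.e l l ∉ q := by
    by_contra h
    push Not at h
    exact hq.ne_top ((Ideal.eq_top_iff_one _).mpr (F.sum_diag ▸ q.sum_mem fun l _ => h l))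
  refine ⟨F.e l l, hl, algebraMap A _ (F.f l), ?_, ?_⟩
  · rw [mem_nonZeroDivisors_iff_right]
    intro z hz
    obtain ⟨⟨a, s⟩, rfl⟩ := IsLocalization.mk'_surjective (Submonoid.powers (F.e l l)) z
    simp only at hz ⊢
    rw [← IsLocalization.mk'_one (M := Submonoid.powers (F.e l l)) _ (F.f l),
      ← IsLocalization.mk'_mul, IsLocalization.mk'_eq_zero_iff] at hz
    obtain ⟨m, hm⟩ := hz
    rw [IsLocalization.mk'_eq_zero_iff]
    refine ⟨m * ⟨F.e l l, Submonoid.mem_powers _⟩, ?_⟩
    rw [Submonoid.coe_mul, mul_comm (m : A) (F.e l l), mul_assoc]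
    exact F.diag_mul_eq_zero (by rw [mul_assoc, hm])
  · rw [show J.map (algebraMap A (Localization.Away (F.e l l))) =
      Ideal.span (Set.range fun i => algebraMap A (Localization.Away (F.e l l)) (F.f i)) by
        refine (congrArg (Ideal.map _) F.span_eq).trans ?_
        rw [Ideal.map_span, ← Set.range_comp]
        rfl]
    refine le_antisymm (Ideal.span_le.mpr ?_) (Ideal.span_mono (by simp))
    rintro _ ⟨i, rfl⟩
    refine (Ideal.unit_mul_mem_iff_mem _
      (IsLocalization.Away.algebraMap_isUnit (F.e l l))).mp ?_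
    rw [← map_mul, ← F.cross, map_mul]
    exact Ideal.mul_mem_left _ _ (Ideal.mem_span_singleton_self _)

end Frame

variable {k : Type u} [Field k] {R : Type u} [CommRing R] [Algebra k R]
variable {B B' : Type u} [CommRing B] [Algebra k B] [CommRing B'] [Algebra k B'] (ψ : B →ₐ[k] B')

/-- Dual bases can be transported along changes of parameters. -/
def Frame.map {J : Ideal (B ⊗[k] R)} (F : Frame B J) : Frame B' (J.map (push ψ)) where
  ι := F.ι
  f i := push ψ (F.f i)
  e l i := push ψ (F.e l i)
  τ l := ((push ψ).toLinearMap ∘ₗ (F.τ l).restrictScalars k ∘ₗ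
    (Algebra.TensorProduct.includeRight : R →ₐ[k] B ⊗[k] R).toLinearMap).liftBaseChange B'
  span_eq := by
    refine (congrArg (Ideal.map _) F.span_eq).trans ?_
    rw [Ideal.map_span, ← Set.range_comp]
    rfl
  sum_diag := by rw [← map_sum, F.sum_diag, map_one]
  cross l i := by rw [← map_mul, F.cross, map_mul]
  sum_mul i := by simp only [← map_mul, ← map_sum, F.sum_mul]
  τ_mul l i y := by
    set τ' := ((push ψ).toLinearMap ∘ₗ (F.τ l).restrictScalars k ∘ₗ
      (Algebra.TensorProduct.includeRight : R →ₐ[k] B ⊗[k] R).toLinearMap).liftBaseChange B' with hτ'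
    have hτ : ∀ z, τ' (push ψ z) = push ψ (F.τ l z) := fun z => by
      induction z using TensorProduct.induction_on with
      | zero => simp
      | tmul b r =>
          rw [show b ⊗ₜ[k] r = b • ((1 : B) ⊗ₜ[k] r) by rw [smul_tmul', smul_eq_mul, mul_one],
            push_smul, map_smul, map_smul, push_smul, hτ', Algebra.TensorProduct.map_tmul,
            map_one, AlgHom.id_apply, LinearMap.liftBaseChange_tmul, one_smul]
          rfl
      | add x y hx hy => simp only [map_add, hx, hy]
    induction y using TensorProduct.induction_on with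
    | zero => simp
    | tmul b r =>
        rw [show b ⊗ₜ[k] r = b • push ψ ((1 : B) ⊗ₜ[k] r) by
            rw [Algebra.TensorProduct.map_tmul, map_one, smul_tmul', smul_eq_mul, mul_one]; rfl,
          smul_mul_assoc, map_smul, ← map_mul, hτ, F.τ_mul, map_mul, mul_smul_comm]
    | add x y hx hy => rw [add_mul, map_add, hx, hy, mul_add]

end Fermat.Agent.Jacobian.HilbChart
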