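/-
Lifting an ideal with a frame along a square-zero extension of the parameters.
-/
import Fermat.Agent.Jacobian.HilbChart.Frame

set_option autoImplicit false

universe u

open TensorProduct

noncomputable section

namespace Fermat.Agent.Jacobian.HilbChart

open Fermat.Agent.Jacobian

variable {k : Type u} [Field k] {R : Type u} [CommRing R] [Algebra k R] {g : ℕ} {E : Fin g → R}
variable {B B₁ : Type u} [CommRing B] [Algebra k B] [CommRing B₁] [Algebra k B₁] (π : B →ₐ[k] B₁)

theorem ker_push_le (hπ : Function.Surjective π) :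
    RingHom.ker (push (R := R) π) ≤ (RingHom.ker π).map (algebraMap B (B ⊗[k] R)) := by
  rw [show algebraMap B (B ⊗[k] R) =
    (Algebra.TensorProduct.includeLeft : B →ₐ[k] B ⊗[k] R).toRingHom from rfl]
  exact (Algebra.TensorProduct.rTensor_ker π hπ).le

theorem push_surjective (hπ : Function.Surjective π) : Function.Surjective (push (R := R) π) :=
  fun z => by
    induction z using TensorProduct.induction_on with
    | zero => exact ⟨0, map_zero _⟩
    | tmul b r =>
        obtain ⟨b', rfl⟩ := hπ b
        exact ⟨b' ⊗ₜ r, rfl⟩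
    | add x y hx hy =>
        obtain ⟨x', rfl⟩ := hx
        obtain ⟨y', rfl⟩ := hy
        exact ⟨x' + y', map_add _ _ _⟩

theorem exists_isHilb_lift (hπ : Function.Surjective π) (hN : RingHom.ker π ^ 2 = ⊥)
    {J₁ : Ideal (B₁ ⊗[k] R)} (h₁ : IsHilb E J₁) (F : Frame B₁ J₁) :
    ∃ J : Ideal (B ⊗[k] R), IsHilb E J ∧ J.map (push π) = J₁ := by
  classical
  set P := push (R := R) π with hP
  have hPs : Function.Surjective P := push_surjective π hπ
  set NA := (RingHom.ker π).map (algebraMap B (B ⊗[k] R)) with hNA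
  choose f hf using fun i => hPs (F.f i)
  choose e he using fun l i => hPs (F.e l i)
  set f' : F.ι → B ⊗[k] R := fun i => ∑ l, e l i * f l with hf'
  have hPf' : ∀ i, P (f' i) = F.f i := fun i => by
    simp only [hf', map_sum, map_mul, hf, he, F.sum_mul]
  have hNA2 : ∀ x ∈ NA, ∀ y ∈ NA, x * y = 0 := fun x hx y hy => by
    have h : x * y ∈ NA * NA := Ideal.mul_mem_mul hx hy
    rw [hNA, ← Ideal.map_mul, ← pow_two, hN, Ideal.map_bot] at h
    exact (Submodule.mem_bot _).mp h
  have hsq : ∀ n ∈ RingHom.ker π, ∀ m ∈ RingHom.ker π, n * m = 0 := fun n hn m hm => by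
    have h : n * m ∈ RingHom.ker π * RingHom.ker π := Ideal.mul_mem_mul hn hm
    rw [← pow_two, hN] at h
    exact (Submodule.mem_bot _).mp h
  refine ⟨Ideal.span (Set.range f'), ?_, ?_⟩
  swap
  · rw [Ideal.map_span, ← Set.range_comp, show P ∘ f' = F.f from funext hPf', ← F.span_eq]
  have hmap : ∀ x, P (comb E x) = comb E fun i => π (x i) := fun x => push_comb π x
  -- a lift of the coordinate map
  obtain ⟨φ₀, hφ₀⟩ := Module.projective_lifting_property
    (LinearMap.pi fun i : Fin g => π.toLinearMap ∘ₗ LinearMap.proj i) (coord h₁) (fun v => by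
      choose v' hv' using fun i => hπ (v i)
      exact ⟨v', funext hv'⟩)
  set ρ := φ₀.liftBaseChange B with hρ
  have hρP : ∀ z i, π (ρ z i) = (coord h₁).liftBaseChange B₁ (P z) i := fun z => by
    induction z using TensorProduct.induction_on with
    | zero => simp
    | tmul b r =>
        intro i
        rw [hρ, LinearMap.liftBaseChange_tmul, hP, Algebra.TensorProduct.map_tmul,
          LinearMap.liftBaseChange_tmul, Pi.smul_apply, Pi.smul_apply, smul_eq_mul, smul_eq_mul,
          map_mul, AlgHom.id_apply, ← hφ₀]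
        rfl
    | add x y hx hy => intro i; simp only [map_add, Pi.add_apply, hx i, hy i]
  -- `ρ` kills `NA * J`
  have hρf : ∀ n ∈ NA, ∀ i, ρ (n * f' i) = 0 := fun n hn i => by
    have hn' : n ∈ RingHom.ker π • (⊤ : Submodule B (B ⊗[k] R)) := by
      rw [Ideal.smul_top_eq_map]; exact hn
    refine Submodule.smul_induction_on hn' (fun b hb y _ => ?_) (fun y z hy hz => ?_)
    · rw [smul_mul_assoc, map_smul]
      refine funext fun j => hsq b hb _ ((RingHom.mem_ker).mpr ?_)
      rw [hρP, map_mul, hPf']
      exact congrFun ((mem_iff_lift_coord h₁ _).mp (J₁.mul_mem_left _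
        (F.mem i))) j
    · rw [add_mul, map_add, hy, hz, add_zero]
  refine ⟨fun v w hvw => ?_, fun x => ?_⟩
  · have hd : comb E (v - w) ∈ Ideal.span (Set.range f') := by
      rw [map_sub]; exact (Ideal.Quotient.eq).mp hvw
    obtain ⟨a, ha⟩ := Ideal.mem_span_range_iff_exists_fun.mp hd
    have h0 : P (comb E (v - w)) ∈ J₁ := by
      rw [← ha, map_sum]
      refine J₁.sum_mem fun i _ => ?_
      rw [map_mul, hPf']
      exact J₁.mul_mem_left _ (F.mem i)
    rw [hmap] at h0
    have hv0 : (fun i => π ((v - w) i)) = 0 := eq_zero_of_comb_mem h₁ h0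
    have hPa : ∑ i, P (a i) * F.f i = 0 := by
      simp only [← hPf', ← map_mul, ← map_sum, ha, hmap, hv0, map_zero]
    have hb : ∀ l, ∑ i, e l i * a i ∈ NA := fun l => ker_push_le π hπ ((RingHom.mem_ker).mpr (by
      simp only [map_sum, map_mul, ← hP, he]
      exact F.ker_eq _ hPa l))
    have hff : ∀ l, f' l - f l ∈ NA := fun l => ker_push_le π hπ ((RingHom.mem_ker).mpr (by
      rw [map_sub, hPf', hf, sub_self]))
    have hsum : comb E (v - w) = ∑ l, (∑ i, e l i * a i) * f' l := by
      rw [← ha]
      calc ∑ i, a i * f' i = ∑ l, (∑ i, e l i * a i) * f l := by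
            simp only [hf', Finset.mul_sum, Finset.sum_mul]
            rw [Finset.sum_comm]
            exact Finset.sum_congr rfl fun _ _ => Finset.sum_congr rfl fun _ _ => by ring
        _ = _ := Finset.sum_congr rfl fun l _ => (sub_eq_zero.mp (by
            rw [← mul_sub]; exact hNA2 _ (hb l) _ (hff l))).symm
    have hρ0 : ρ (comb E (v - w)) = 0 := by
      rw [hsum, map_sum]
      exact Finset.sum_eq_zero fun l _ => hρf _ (hb l) l
    rw [← sub_eq_zero]
    funext j
    have hj := congrFun hρ0 j
    rw [comb_apply, map_sum, Finset.sum_apply, Pi.zero_apply] at hj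
    simp only [hρ, LinearMap.liftBaseChange_tmul, Pi.smul_apply, smul_eq_mul] at hj
    have hE : ∀ i, φ₀ (E i) j - (Pi.single i 1 : Fin g → B) j ∈ RingHom.ker π := fun i => by
      rw [RingHom.mem_ker, map_sub, sub_eq_zero]
      have h := congrFun (LinearMap.congr_fun hφ₀ (E i)) j
      rw [(isHilbMap_coord h₁).apply_basis] at h
      refine h.trans ?_
      rcases eq_or_ne j i with rfl | hji
      · simp
      · simp [Pi.single_eq_of_ne hji]
    have hz : ∀ i, (v - w) i * φ₀ (E i) j = (v - w) i * (Pi.single i 1 : Fin g → B) j := fun i =>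
      sub_eq_zero.mp (by rw [← mul_sub]; exact hsq _ ((RingHom.mem_ker).mpr (congrFun hv0 i)) _ (hE i))
    simp only [hz] at hj
    rw [Finset.sum_eq_single j (fun i _ hi => by rw [Pi.single_eq_of_ne hi.symm, mul_zero])
      (by simp), Pi.single_eq_same, mul_one] at hj
    exact hj
  · obtain ⟨z, rfl⟩ := Ideal.Quotient.mk_surjective x
    have key : ∀ z, ∃ v, z - comb E v ∈ Ideal.span (Set.range f') ⊔ NA := fun z => by
      obtain ⟨v₁, hv₁⟩ := exists_sub_comb_mem h₁ (P z)
      choose v hv using fun i => hπ (v₁ i)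
      refine ⟨v, ?_⟩
      rw [show v₁ = fun i => π (v i) from (funext hv).symm, ← hmap, ← map_sub, F.span_eq,
        show F.f = P ∘ f' from (funext hPf').symm, Set.range_comp, ← Ideal.map_span,
        ← Ideal.mem_comap, Ideal.comap_map_of_surjective _ hPs] at hv₁
      refine (sup_le_sup_left (α := Ideal (B ⊗[k] R)) ?_ (Ideal.span (Set.range f'))) hv₁
      rw [← RingHom.ker_eq_comap_bot]
      exact ker_push_le π hπ
    obtain ⟨v, hv⟩ := key z
    obtain ⟨j, hj, p, hp, hjp⟩ := Submodule.mem_sup.mp hv
    have hp' : ∃ w, p - comb E w ∈ Ideal.span (Set.range f') := by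
      have hn' : p ∈ RingHom.ker π • (⊤ : Submodule B (B ⊗[k] R)) := by
        rw [Ideal.smul_top_eq_map]; exact hp
      refine Submodule.smul_induction_on hn' (fun b hb y _ => ?_) ?_
      · obtain ⟨u, hu⟩ := key y
        obtain ⟨j', hj', p', hp', hjp'⟩ := Submodule.mem_sup.mp hu
        refine ⟨b • u, ?_⟩
        rw [map_smul, ← smul_sub, ← hjp', smul_add, Algebra.smul_def b p',
          hNA2 _ (Ideal.mem_map_of_mem _ hb) _ hp', add_zero]
        exact Submodule.smul_of_tower_mem _ b hj'
      · rintro y y' ⟨w, hw⟩ ⟨w', hw'⟩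
        exact ⟨w + w', by rw [map_add, add_sub_add_comm]; exact add_mem hw hw'⟩
    obtain ⟨w, hw⟩ := hp'
    refine ⟨v + w, ((Ideal.Quotient.eq).mpr ?_).symm⟩
    rw [show (∑ i, (v + w) i ⊗ₜ[k] E i) = comb E (v + w) from rfl, map_add,
      show z - (comb E v + comb E w) = j + (p - comb E w) by
        rw [show j = z - comb E v - p from eq_sub_of_add_eq hjp]; abel]
    exact add_mem hj hw

end Fermat.Agent.Jacobian.HilbChart
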