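/-
An ideal with finite free quotient over a finite type algebra over an algebraically closed field
is locally generated by one regular element, when the fibres lie in a Dedekind domain.
-/
import Fermat.Agent.Jacobian.HilbChart.Frame

set_option autoImplicit false

universe u

open TensorProduct

noncomputable section

namespace Fermat.Agent.Jacobian.HilbChart

open Fermat.Agent.Jacobian

section Patch

variable {B A : Type u} [CommRing B] [CommRing A] [Algebra B A] {J : Ideal A}

/-- A local generator: `h` times any element of `J` is a multiple of `f`, and `h` kills the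
annihilator of `f`. -/
def IsLocalGen (J : Ideal A) (h f : A) : Prop :=
  f ∈ J ∧ (∀ x ∈ J, ∃ r, r * f = h * x) ∧ ∀ y, y * f = 0 → h * y = 0

variable {h f : A}

theorem IsLocalGen.div_unique (H : IsLocalGen J h f) {r r' : A} (e : r * f = r' * f) :
    h * r = h * r' := by
  rw [← sub_eq_zero, ← mul_sub]
  exact H.2.2 _ (by rw [sub_mul, e, sub_self])

/-- Division by a local generator, times `h * h`. -/
def IsLocalGen.div (H : IsLocalGen J h f) : J →ₗ[A] A where
  toFun x := h * (H.2.1 x x.2).choose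
  map_add' x y := by
    rw [← mul_add]
    exact H.div_unique (by
      rw [add_mul, (H.2.1 _ (x + y).2).choose_spec, (H.2.1 _ x.2).choose_spec,
        (H.2.1 _ y.2).choose_spec, ← mul_add]
      rfl)
  map_smul' a x := by
    rw [RingHom.id_apply, smul_eq_mul, mul_left_comm]
    exact H.div_unique (by
      rw [mul_assoc, (H.2.1 _ (a • x).2).choose_spec, (H.2.1 _ x.2).choose_spec, mul_left_comm]
      rfl)

theorem IsLocalGen.div_mul (H : IsLocalGen J h f) (x : J) : H.div x * f = h * h * x := by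
  show h * (H.2.1 x x.2).choose * f = _
  rw [mul_assoc, (H.2.1 x x.2).choose_spec, mul_assoc]

theorem IsLocalGen.div_self (H : IsLocalGen J h f) : H.div ⟨f, H.1⟩ = h * h :=
  H.div_unique (by rw [(H.2.1 f H.1).choose_spec])

/-- Local generators at all maximal ideals and a projection onto `J` give a frame. -/
theorem nonempty_frame (p : A →ₗ[B] J) (hp : ∀ x : J, p x = x)
    (H : ∀ q : Ideal A, q.IsMaximal → ∃ h ∉ q, ∃ f, IsLocalGen J h f) :
    Nonempty (Frame B J) := by
  classical
  choose h hh f hf using H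
  let a : {q : Ideal A // q.IsMaximal} → A := fun q => h q q.2 * h q q.2
  have htop : Ideal.span (Set.range a) = ⊤ := by
    by_contra hne
    obtain ⟨q, hq, hle⟩ := Ideal.exists_le_maximal _ hne
    exact (hq.isPrime.mem_or_mem (hle (Ideal.subset_span ⟨⟨q, hq⟩, rfl⟩))).elim (hh q hq) (hh q hq)
  obtain ⟨c, hc⟩ := (Finsupp.mem_ideal_span_range_iff_exists_finsupp).mp
    ((Ideal.eq_top_iff_one _).mp htop)
  rw [Finsupp.sum, ← Finset.sum_coe_sort c.support (fun q => c q * a q)] at hc
  let fJ : c.support → J := fun l => ⟨f l.1.1 l.1.2, (hf l.1.1 l.1.2).1⟩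
  have hdiag : ∀ l : c.support, c l.1 * (hf l.1.1 l.1.2).div (fJ l) = c l.1 * a l.1 :=
    fun l => congrArg _ (hf l.1.1 l.1.2).div_self
  have hcross : ∀ (l : c.support) (x : J),
      c l.1 * (hf l.1.1 l.1.2).div x * fJ l = c l.1 * a l.1 * x := fun l x => by
    rw [mul_assoc, (hf l.1.1 l.1.2).div_mul]
    simp only [a, mul_assoc]
  refine ⟨{ ι := c.support
            f := fun l => fJ l
            e := fun l i => c l.1 * (hf l.1.1 l.1.2).div (fJ i)
            τ := fun l => ((c l.1 • (hf l.1.1 l.1.2).div).restrictScalars B).comp p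
            span_eq := ?_
            sum_diag := ?_
            cross := fun l i => ?_
            sum_mul := fun i => ?_
            τ_mul := fun l i y => ?_ }⟩
  · refine le_antisymm (fun x hx => ?_) (Ideal.span_le.mpr ?_)
    · have hx' : x = ∑ l : c.support, c l.1 * (hf l.1.1 l.1.2).div ⟨x, hx⟩ * fJ l := by
        simp only [hcross]
        rw [← Finset.sum_mul, hc, one_mul]
      rw [hx']
      exact Submodule.sum_mem _ fun l _ => Ideal.mul_mem_left _ _ (Ideal.subset_span ⟨l, rfl⟩)
    · rintro _ ⟨l, rfl⟩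
      exact (fJ l).2
  · simp only [hdiag, hc]
  · rw [hcross l (fJ i), hdiag l]
  · simp only [hcross]
    rw [← Finset.sum_mul, hc, one_mul]
  · show (c l.1 • (hf l.1.1 l.1.2).div) (p (y * (fJ i : A))) = _
    rw [show p (y * (fJ i : A)) = y • fJ i from hp (y • fJ i), map_smul, LinearMap.smul_apply,
      smul_eq_mul, smul_eq_mul, mul_comm y]

end Patch

section Point

variable {k : Type u} [Field k] [IsAlgClosed k] {R : Type u} [CommRing R] [Algebra k R]
  [IsDedekindDomain R] [Algebra.FiniteType k R] {g : ℕ} {E : Fin g → R}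
variable {B : Type u} [CommRing B] [Algebra k B] [Algebra.FiniteType k B]

omit [IsAlgClosed k] [IsDedekindDomain R] in
theorem finiteType_tensor : Algebra.FiniteType k (B ⊗[k] R) :=
  Algebra.FiniteType.trans (‹Algebra.FiniteType k B›) (inferInstance : Algebra.FiniteType B (B ⊗[k] R))

omit [IsAlgClosed k] [IsDedekindDomain R] in
theorem isNoetherian_tensor : IsNoetherianRing (B ⊗[k] R) :=
  have := finiteType_tensor (k := k) (R := R) (B := B)
  Algebra.FiniteType.isNoetherianRing k _

omit [IsDedekindDomain R] in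
theorem exists_rational_point (q : Ideal (B ⊗[k] R)) [q.IsMaximal] :
    ∃ θ : B ⊗[k] R →ₐ[k] k, RingHom.ker θ = q := by
  have := finiteType_tensor (k := k) (R := R) (B := B)
  let : Field ((B ⊗[k] R) ⧸ q) := Ideal.Quotient.field q
  have : Module.Finite k ((B ⊗[k] R) ⧸ q) :=
    finite_of_finite_type_of_isJacobsonRing k ((B ⊗[k] R) ⧸ q)
  have hbij : Function.Bijective (Algebra.ofId k ((B ⊗[k] R) ⧸ q)) :=
    IsAlgClosed.algebraMap_bijective_of_isIntegral
  refine ⟨(AlgEquiv.ofBijective _ hbij).symm.toAlgHom.comp (Ideal.Quotient.mkₐ k q), ?_⟩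
  ext x
  simp [Ideal.Quotient.eq_zero_iff_mem]

/-- The restriction to the fibre at a rational point `χ` of `B`. -/
abbrev fibre (χ : B →ₐ[k] k) : B ⊗[k] R →ₐ[k] R :=
  Algebra.TensorProduct.lift ((Algebra.ofId k R).comp χ) (AlgHom.id k R) fun _ _ => Commute.all _ _

omit [IsAlgClosed k] [IsDedekindDomain R] [Algebra.FiniteType k R] [Algebra.FiniteType k B] in
theorem fibre_tmul (χ : B →ₐ[k] k) (b : B) (r : R) : fibre χ (b ⊗ₜ[k] r) = χ b • r := by
  rw [Algebra.TensorProduct.lift_tmul, Algebra.smul_def]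
  rfl

omit [IsAlgClosed k] [IsDedekindDomain R] [Algebra.FiniteType k R] [Algebra.FiniteType k B] in
theorem fibre_tmul_one (χ : B →ₐ[k] k) (r : R) : fibre χ ((1 : B) ⊗ₜ[k] r) = r := by
  rw [fibre_tmul, map_one, one_smul]

omit [IsAlgClosed k] [IsDedekindDomain R] [Algebra.FiniteType k R] [Algebra.FiniteType k B] in
theorem ker_fibre_le (χ : B →ₐ[k] k) :
    RingHom.ker (fibre (R := R) χ) ≤ (RingHom.ker χ).map (algebraMap B (B ⊗[k] R)) := by
  have key : ∀ x : B ⊗[k] R,
      x - (1 : B) ⊗ₜ[k] fibre χ x ∈ (RingHom.ker χ).map (algebraMap B (B ⊗[k] R)) := fun x => by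
    induction x using TensorProduct.induction_on with
    | zero => simp
    | tmul b r =>
        have hb : b - χ b • 1 ∈ RingHom.ker χ := by simp [RingHom.mem_ker]
        rw [fibre_tmul, tmul_smul, smul_tmul', ← sub_tmul,
          show (b - χ b • 1) ⊗ₜ[k] r = algebraMap B (B ⊗[k] R) (b - χ b • 1) * ((1 : B) ⊗ₜ[k] r) by
            simp [Algebra.TensorProduct.algebraMap_apply]]
        exact Ideal.mul_mem_right _ _ (Ideal.mem_map_of_mem _ hb)
    | add x y hx hy =>
        rw [map_add, tmul_add, add_sub_add_comm]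
        exact add_mem hx hy
  intro x hx
  simpa [(RingHom.mem_ker).mp hx] using key x

/-- The projection onto an ideal with given basis of the quotient. -/
def proj {J : Ideal (B ⊗[k] R)} (hJ : IsHilb E J) : B ⊗[k] R →ₗ[B] J :=
  LinearMap.codRestrict (J.restrictScalars B)
    (LinearMap.id - (comb E).comp ((coord hJ).liftBaseChange B)) fun z => by
      have h := sub_comb_mem_mapIdeal (E := E) (coord hJ) z
      rw [← eq_mapIdeal hJ] at h
      exact h

omit [IsAlgClosed k] [IsDedekindDomain R] [Algebra.FiniteType k R] [Algebra.FiniteType k B] in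
theorem proj_apply_mem {J : Ideal (B ⊗[k] R)} (hJ : IsHilb E J) (x : J) : proj hJ x = x :=
  Subtype.ext (show (x : B ⊗[k] R) - comb (k := k) E ((coord hJ).liftBaseChange B x) = x by
    rw [(mem_iff_lift_coord hJ (x : B ⊗[k] R)).mp x.2, map_zero, sub_zero])

omit [IsAlgClosed k] [IsDedekindDomain R] [Algebra.FiniteType k R] [Algebra.FiniteType k B] in
theorem mem_mul_of_mem_map {J : Ideal (B ⊗[k] R)} (hJ : IsHilb E J) (m : Ideal B)
    {x : B ⊗[k] R} (hx : x ∈ J) (hm : x ∈ m.map (algebraMap B (B ⊗[k] R))) :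
    x ∈ m.map (algebraMap B (B ⊗[k] R)) * J := by
  have hm' : x ∈ m • (⊤ : Submodule B (B ⊗[k] R)) := by rw [Ideal.smul_top_eq_map]; exact hm
  have key : ∀ y ∈ m • (⊤ : Submodule B (B ⊗[k] R)),
      (proj hJ y : B ⊗[k] R) ∈ m.map (algebraMap B (B ⊗[k] R)) * J := fun y hy => by
    refine Submodule.smul_induction_on hy (fun b hb z _ => ?_) (fun y z hy hz => ?_)
    · rw [map_smul, Submodule.coe_smul_of_tower, Algebra.smul_def]
      exact Ideal.mul_mem_mul (Ideal.mem_map_of_mem _ hb) (proj hJ z).2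
    · rw [map_add, Submodule.coe_add]
      exact add_mem hy hz
  simpa [proj_apply_mem hJ ⟨x, hx⟩] using key x hm'

omit [IsAlgClosed k] [Algebra.FiniteType k R] in
theorem exists_generator_localised (I₀ : Ideal R) (q₀ : Ideal R) [q₀.IsPrime] (hq : q₀ ≠ ⊥) :
    ∃ a ∈ I₀, ∀ x ∈ I₀, ∃ σ ∉ q₀, ∃ r, r * a = σ * x := by
  have := IsLocalization.AtPrime.isDiscreteValuationRing_of_dedekind_domain R hq
    (Localization.AtPrime q₀)
  obtain ⟨γ, hγ⟩ := (IsPrincipalIdealRing.principal
    (I₀.map (algebraMap R (Localization.AtPrime q₀)))).principal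
  have hγm : γ ∈ I₀.map (algebraMap R (Localization.AtPrime q₀)) :=
    hγ ▸ Submodule.mem_span_singleton_self γ
  obtain ⟨⟨⟨a, ha⟩, s⟩, has⟩ := (IsLocalization.mem_map_algebraMap_iff q₀.primeCompl _).mp hγm
  refine ⟨a, ha, fun x hx => ?_⟩
  have hxm : algebraMap R (Localization.AtPrime q₀) x ∈ Submodule.span _ {γ} :=
    hγ ▸ Ideal.mem_map_of_mem _ hx
  obtain ⟨c, hc⟩ := Submodule.mem_span_singleton.mp hxm
  obtain ⟨⟨r, t⟩, rfl⟩ := IsLocalization.mk'_surjective q₀.primeCompl c
  refine ⟨(s : R) * t, (s * t).2, r, ?_⟩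
  apply IsLocalization.injective (Localization.AtPrime q₀) q₀.primeCompl_le_nonZeroDivisors
  simp only [map_mul, smul_eq_mul] at hc ⊢
  rw [← hc, ← IsLocalization.mk'_spec (Localization.AtPrime q₀) r t, ← has]
  ring

omit [IsAlgClosed k] in
/-- Nakayama: an ideal contained in the sum of `F` and a multiple of itself by a prime. -/
theorem exists_smul_mem {A : Type u} [CommRing A] [IsNoetherianRing A] (q : Ideal A) [q.IsPrime]
    (K F : Ideal A) (hK : ∀ x ∈ K, ∃ s ∉ q, s * x ∈ F ⊔ q * K) :
    ∃ s ∉ q, ∀ x ∈ K, s * x ∈ F := by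
  have hle : K.map (algebraMap A (Localization.AtPrime q)) ≤
      F.map (algebraMap A (Localization.AtPrime q)) ⊔
        IsLocalRing.maximalIdeal (Localization.AtPrime q) •
          K.map (algebraMap A (Localization.AtPrime q)) := by
    refine Ideal.map_le_iff_le_comap.mpr fun x hx => ?_
    obtain ⟨s, hs, hsx⟩ := hK x hx
    have h := Ideal.mem_map_of_mem (algebraMap A (Localization.AtPrime q)) hsx
    rw [map_mul, Ideal.map_sup, Ideal.map_mul, Localization.AtPrime.map_eq_maximalIdeal,
      Ideal.unit_mul_mem_iff_mem _ (IsLocalization.map_units _ (⟨s, hs⟩ : q.primeCompl))] at h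
    exact h
  have hle' := Submodule.le_of_le_smul_of_le_jacobson_bot
    (IsNoetherian.noetherian (K.map (algebraMap A (Localization.AtPrime q))))
    (IsLocalRing.maximalIdeal_le_jacobson _) hle
  have key : ∀ x ∈ K, ∃ s : q.primeCompl, (s : A) * x ∈ F := fun x hx => by
    have h := hle' (Ideal.mem_map_of_mem (algebraMap A (Localization.AtPrime q)) hx)
    exact (IsLocalization.algebraMap_mem_map_algebraMap_iff q.primeCompl _ F x).mp h |>.elim
      fun m hm => ⟨⟨m, hm.1⟩, hm.2⟩
  classical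
  choose σ hσ using key
  obtain ⟨t, ht⟩ := IsNoetherian.noetherian K
  have htK : ∀ x ∈ t, x ∈ K := fun x hx => ht ▸ Submodule.subset_span hx
  refine ⟨((∏ x ∈ t.attach, σ x.1 (htK x.1 x.2) : q.primeCompl) : A),
    (∏ x ∈ t.attach, σ x.1 (htK x.1 x.2) : q.primeCompl).2,
    fun x hx => ?_⟩
  rw [← ht] at hx
  induction hx using Submodule.span_induction with
  | mem y hy =>
      obtain ⟨w, hw⟩ := Finset.dvd_prod_of_mem (fun x : {a // a ∈ t} => σ x.1 (htK x.1 x.2))
        (Finset.mem_attach t ⟨y, hy⟩)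
      rw [hw, Submonoid.coe_mul, mul_comm ((σ y _ : q.primeCompl) : A), mul_assoc]
      exact F.mul_mem_left _ (hσ y (htK y hy))
  | zero => simp
  | add y z _ _ hy hz => rw [mul_add]; exact add_mem hy hz
  | smul a y _ hy => rw [smul_eq_mul, mul_left_comm]; exact F.mul_mem_left _ hy

theorem exists_localGen (hR : ¬ IsField R) {J : Ideal (B ⊗[k] R)} (hJ : IsHilb E J)
    (q : Ideal (B ⊗[k] R)) [q.IsMaximal] : ∃ h ∉ q, ∃ f, IsLocalGen J h f := by
  have := isNoetherian_tensor (k := k) (R := R) (B := B)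
  obtain ⟨θ, hθ⟩ := exists_rational_point (R := R) (B := B) q
  set χ : B →ₐ[k] k := θ.comp Algebra.TensorProduct.includeLeft with hχ
  set ξ : R →ₐ[k] k := θ.comp Algebra.TensorProduct.includeRight with hξ
  have hθF : ∀ x, θ x = ξ (fibre χ x) := fun x => by
    induction x using TensorProduct.induction_on with
    | zero => simp
    | tmul b r =>
        rw [fibre_tmul, map_smul, smul_eq_mul, hχ, hξ, AlgHom.comp_apply, AlgHom.comp_apply,
          ← map_mul, Algebra.TensorProduct.includeLeft_apply,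
          Algebra.TensorProduct.includeRight_apply, Algebra.TensorProduct.tmul_mul_tmul, mul_one,
          one_mul]
    | add x y hx hy => rw [map_add, map_add, map_add, hx, hy]
  have hmem : ∀ x, x ∈ q ↔ ξ (fibre χ x) = 0 := fun x => by
    rw [← hθF, ← hθ, RingHom.mem_ker]
  have hsurj : Function.Surjective (fibre (R := R) χ) :=
    fun r => ⟨_, fibre_tmul_one χ r⟩
  have hξsurj : Function.Surjective ξ := fun a => ⟨algebraMap k R a, by simp⟩
  let q₀ : Ideal R := RingHom.ker ξ
  have : q₀.IsMaximal := RingHom.ker_isMaximal_of_surjective _ hξsurj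
  obtain ⟨-, ⟨f, hfJ, rfl⟩, hf⟩ := by
    have h := exists_generator_localised (J.map (fibre χ)) q₀ (Ring.ne_bot_of_isMaximal_of_not_isField ‹_› hR)
    simp only [Ideal.mem_map_iff_of_surjective _ hsurj] at h
    exact h
  have hmq : (RingHom.ker χ).map (algebraMap B (B ⊗[k] R)) ≤ q := by
    refine Ideal.map_le_iff_le_comap.mpr fun b hb => ?_
    rw [Ideal.mem_comap, ← hθ, RingHom.mem_ker, Algebra.TensorProduct.algebraMap_apply,
      Algebra.algebraMap_self, RingHom.id_apply]
    exact hb
  -- the ideal is generated by `f` near `q`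
  obtain ⟨σ, hσ, hσJ⟩ : ∃ s ∉ q, ∀ x ∈ J, s * x ∈ Ideal.span {f} := by
    refine exists_smul_mem q J _ fun x hx => ?_
    obtain ⟨s₀, hs₀, r₀, hr⟩ := hf _ ⟨x, hx, rfl⟩
    obtain ⟨s, rfl⟩ := hsurj s₀
    obtain ⟨r, rfl⟩ := hsurj r₀
    refine ⟨s, fun h => hs₀ ((RingHom.mem_ker).mpr ((hmem s).mp h)), ?_⟩
    have hker : s * x - r * f ∈ RingHom.ker (fibre (R := R) χ) := by
      rw [RingHom.mem_ker, map_sub, map_mul, map_mul, ← hr, sub_self]
    rw [show s * x = r * f + (s * x - r * f) by ring]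
    refine Submodule.add_mem_sup (Ideal.mul_mem_left _ _ (Ideal.mem_span_singleton_self f))
      (Ideal.mul_mono_left hmq (mem_mul_of_mem_map hJ _ ?_ (ker_fibre_le χ hker)))
    exact J.sub_mem (J.mul_mem_left _ hx) (J.mul_mem_left _ hfJ)
  have hf0 : fibre χ f ≠ 0 := by
    intro h0
    have hzero : ∀ x ∈ J, fibre χ x = 0 := fun x hx => by
      obtain ⟨s₀, hs₀, r, hr⟩ := hf _ ⟨x, hx, rfl⟩
      rw [h0, mul_zero] at hr
      exact (mul_eq_zero.mp hr.symm).resolve_left fun h => hs₀ (h ▸ q₀.zero_mem)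
    have hfin : Module.Finite k R := ⟨Submodule.fg_def.mpr ⟨Set.range E, Set.finite_range E,
      _root_.eq_top_iff.mpr fun r _ => by
        have h := hzero _ (sub_comb_coord_mem hJ r)
        rw [map_sub, fibre_tmul_one, comb_apply, map_sum, sub_eq_zero] at h
        rw [h]
        refine Submodule.sum_mem _ fun i _ => ?_
        rw [fibre_tmul]
        exact Submodule.smul_mem _ _ (Submodule.subset_span ⟨i, rfl⟩)⟩⟩
    exact hR (isField_of_isIntegral_of_isField' (R := k) (S := R) (Field.toIsField k))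
  -- `f` is regular near `q`
  have : Module.Projective B J := Module.Projective.of_split
    (J.subtype.restrictScalars B) (proj hJ) (LinearMap.ext fun x => proj_apply_mem hJ x)
  let K : Ideal (B ⊗[k] R) := LinearMap.ker (LinearMap.toSpanSingleton (B ⊗[k] R) (B ⊗[k] R) f)
  have hKmem : ∀ y, y ∈ K ↔ y * f = 0 := fun y => Iff.rfl
  obtain ⟨τ, hτ, hτK⟩ : ∃ s ∉ q, ∀ x ∈ K, s * x ∈ (⊥ : Ideal (B ⊗[k] R)) := by
    refine exists_smul_mem q K ⊥ fun x hx => ⟨σ, hσ, ?_⟩
    rw [bot_sup_eq]
    have hfx : fibre χ x = 0 := by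
      have h := congrArg (fibre (R := R) χ) ((hKmem x).mp hx)
      rw [map_mul, map_zero] at h
      exact (mul_eq_zero.mp h).resolve_right hf0
    have hxm := ker_fibre_le χ ((RingHom.mem_ker).mpr hfx)
    obtain ⟨n, y, b, hsum⟩ := Submodule.mem_span_set'.mp hxm
    choose β hβ hβb using fun i => (b i).2
    simp only [smul_eq_mul, ← hβb] at hsum
    let z : Fin n → J := fun i => ⟨y i * f, J.mul_mem_left _ hfJ⟩
    have hrel : ∑ i, β i • z i = 0 := Subtype.ext (by
      rw [Submodule.coe_sum, Submodule.coe_zero, ← (hKmem x).mp hx, ← hsum, Finset.sum_mul]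
      refine Finset.sum_congr rfl fun i _ => ?_
      rw [Submodule.coe_smul_of_tower, Algebra.smul_def]
      ring)
    obtain ⟨κ, a, w, hzw, hba⟩ := Module.Flat.isTrivialRelation_of_sum_smul_eq_zero hrel
    choose ρ hρ using fun j => Ideal.mem_span_singleton'.mp (hσJ _ (w j).2)
    have hy' : ∀ i, σ * y i - ∑ j, a i j • ρ j ∈ K := fun i => by
      rw [hKmem, sub_mul, Finset.sum_mul, mul_assoc,
        show y i * f = ((z i : J) : B ⊗[k] R) from rfl, hzw i, Submodule.coe_sum, Finset.mul_sum,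
        ← Finset.sum_sub_distrib]
      refine Finset.sum_eq_zero fun j _ => ?_
      rw [Submodule.coe_smul_of_tower, smul_mul_assoc, hρ, mul_smul_comm, sub_self]
    have hx' : σ * x = ∑ i, algebraMap B (B ⊗[k] R) (β i) * (σ * y i - ∑ j, a i j • ρ j) := by
      simp only [← Algebra.smul_def, smul_sub, Finset.sum_sub_distrib, Finset.smul_sum, smul_smul]
      rw [Finset.sum_comm (f := fun i j => (β i * a i j) • ρ j)]
      simp only [← Finset.sum_smul, hba, zero_smul, Finset.sum_const_zero, sub_zero]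
      rw [← hsum, Finset.mul_sum]
      refine Finset.sum_congr rfl fun i _ => ?_
      rw [Algebra.smul_def]
      ring
    rw [hx']
    exact Submodule.sum_mem _ fun i _ =>
      Ideal.mul_mem_mul (hmq (Ideal.mem_map_of_mem _ (hβ i))) (hy' i)
  refine ⟨σ * τ, fun h => (Ideal.IsPrime.mem_or_mem (inferInstance) h).elim hσ hτ, f, hfJ,
    fun x hx => ?_, fun y hy => ?_⟩
  · obtain ⟨r, hr⟩ := Ideal.mem_span_singleton'.mp (hσJ x hx)
    exact ⟨τ * r, by rw [mul_assoc, hr]; ring⟩
  · rw [mul_assoc, (Submodule.mem_bot _).mp (hτK y hy), mul_zero]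

theorem nonempty_frame_of_finiteType (hR : ¬ IsField R) {J : Ideal (B ⊗[k] R)} (hJ : IsHilb E J) :
    Nonempty (Frame B J) :=
  nonempty_frame (proj hJ) (proj_apply_mem hJ) fun q hq => exists_localGen hR hJ q

end Point

end Fermat.Agent.Jacobian.HilbChart
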