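/-
The universal ring of ideals with a given basis of the quotient, and its finite generation.
-/
import Fermat.Agent.Jacobian.HilbChart.Coord

set_option autoImplicit false

universe u

open TensorProduct

noncomputable section

namespace Fermat.Agent.Jacobian.HilbChart

open Fermat.Agent.Jacobian

variable {k : Type u} [Field k] {R : Type u} [CommRing R] [Algebra k R] {g : ℕ} (E : Fin g → R)

/-- Relations between the coordinates of the universal ideal. -/
inductive Rel : MvPolynomial (R × Fin g) k → Prop
  | add (r s : R) (i : Fin g) : Rel (.X (r + s, i) - (.X (r, i) + .X (s, i)))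
  | smul (a : k) (r : R) (i : Fin g) : Rel (.X (a • r, i) - MvPolynomial.C a * .X (r, i))
  | self (j : Fin g) : Rel (.X (E j, j) - 1)
  | other (j i : Fin g) (h : i ≠ j) : Rel (.X (E j, i))
  | mul (r s : R) (i : Fin g) :
      Rel (.X (r * s, i) - ∑ l, .X (s, l) * .X (r * E l, i))

/-- The ideal of relations. -/
def relIdeal : Ideal (MvPolynomial (R × Fin g) k) := Ideal.span ({p | Rel E p})

/-- The universal ring. -/
def URing : Type u := MvPolynomial (R × Fin g) k ⧸ relIdeal (k := k) E

instance : CommRing (URing (k := k) E) :=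
  inferInstanceAs (CommRing (MvPolynomial (R × Fin g) k ⧸ relIdeal (k := k) E))

instance : Algebra k (URing (k := k) E) :=
  inferInstanceAs (Algebra k (MvPolynomial (R × Fin g) k ⧸ relIdeal (k := k) E))

/-- The projection to the universal ring. -/
def umk : MvPolynomial (R × Fin g) k →ₐ[k] URing (k := k) E :=
  Ideal.Quotient.mkₐ k (relIdeal E)

theorem umk_surjective : Function.Surjective (umk (k := k) E) :=
  Ideal.Quotient.mkₐ_surjective k (relIdeal E)

/-- A generator of the universal ring. -/
def gen (r : R) (i : Fin g) : URing (k := k) E := umk E (.X (r, i))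

theorem rel_zero {p : MvPolynomial (R × Fin g) k} (hp : Rel E p) : umk E p = 0 :=
  Ideal.Quotient.eq_zero_iff_mem.mpr (Ideal.subset_span hp)

/-- The universal coordinate map. -/
def ucoord : R →ₗ[k] Fin g → URing (k := k) E where
  toFun r i := gen E r i
  map_add' r s := funext fun i => by
    have h := rel_zero E (Rel.add (k := k) (E := E) r s i)
    rw [map_sub, map_add, sub_eq_zero] at h
    exact h
  map_smul' a r := funext fun i => by
    have h := rel_zero E (Rel.smul (E := E) a r i)
    rw [map_sub, map_mul, ← MvPolynomial.algebraMap_eq, AlgHom.commutes, ← Algebra.smul_def,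
      sub_eq_zero] at h
    exact h

theorem ucoord_apply (r : R) (i : Fin g) : ucoord (k := k) E r i = gen E r i := rfl

theorem isHilbMap_ucoord : IsHilbMap E (ucoord (k := k) E) := by
  refine ⟨fun j => funext fun i => ?_, fun r s => funext fun i => ?_⟩
  · rcases eq_or_ne i j with rfl | hij
    · have h := rel_zero E (Rel.self (k := k) (E := E) i)
      rw [map_sub, map_one, sub_eq_zero] at h
      rw [Pi.single_eq_same, ucoord_apply]
      exact h
    · rw [Pi.single_eq_of_ne hij, ucoord_apply]
      exact rel_zero E (Rel.other j i hij)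
  · have h := rel_zero E (Rel.mul (k := k) (E := E) r s i)
    rw [map_sub, map_sum, sub_eq_zero] at h
    simp only [map_mul] at h
    rw [Finset.sum_apply]
    exact h

theorem uring_algHom_ext {B : Type u} [CommRing B] [Algebra k B] {f f' : URing (k := k) E →ₐ[k] B}
    (h : ∀ r i, f (gen E r i) = f' (gen E r i)) : f = f' :=
  Ideal.Quotient.algHom_ext k (MvPolynomial.algHom_ext fun x => h x.1 x.2 : f.comp (umk E) = f'.comp (umk E))

theorem relIdeal_le_ker {B : Type u} [CommRing B] [Algebra k B] {φ : R →ₗ[k] Fin g → B}
    (hφ : IsHilbMap E φ) :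
    relIdeal E ≤ RingHom.ker (MvPolynomial.aeval (R := k) fun x : R × Fin g => φ x.1 x.2) := by
  refine Ideal.span_le.mpr fun q hq => ?_
  rw [SetLike.mem_coe, RingHom.mem_ker]
  cases hq with
  | add r s i => simp
  | smul a r i => simp only [map_sub, map_mul, MvPolynomial.aeval_X, MvPolynomial.aeval_C, map_smul, Pi.smul_apply, Algebra.smul_def a (φ r i), sub_self]
  | self j => simp [hφ.apply_basis]
  | other j i h => simp [hφ.apply_basis, Pi.single_eq_of_ne h]
  | mul r s i => simp [hφ.apply_mul r s, Finset.sum_apply]

/-- The classifying map. -/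
def classify {B : Type u} [CommRing B] [Algebra k B] {φ : R →ₗ[k] Fin g → B}
    (hφ : IsHilbMap E φ) : URing (k := k) E →ₐ[k] B :=
  Ideal.Quotient.liftₐ _ (MvPolynomial.aeval fun x => φ x.1 x.2) (relIdeal_le_ker E hφ)

theorem classify_gen {B : Type u} [CommRing B] [Algebra k B] {φ : R →ₗ[k] Fin g → B}
    (hφ : IsHilbMap E φ) (r : R) (i : Fin g) : classify E hφ (gen E r i) = φ r i :=
  MvPolynomial.aeval_X (R := k) (fun x : R × Fin g => φ x.1 x.2) (r, i)

/-- The universal ideal. -/
def hilbRing : HilbRing (k := k) E where
  H := URing (k := k) E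
  I := mapIdeal E (ucoord E)
  isHilb := (isHilbMap_ucoord E).isHilb
  univ B _ _ J hJ := by
    refine ⟨classify E (isHilbMap_coord hJ), ?_, fun f hf => ?_⟩
    · show Ideal.map (push _) _ = J
      rw [mapIdeal_push]
      conv_rhs => rw [eq_mapIdeal hJ]
      congr 1
      exact LinearMap.ext fun r => funext fun i => classify_gen E (isHilbMap_coord hJ) r i
    · have h1 : Ideal.map (push f) (mapIdeal E (ucoord E)) = J := hf
      rw [mapIdeal_push] at h1
      have h2 : pushMap f (ucoord (k := k) E) = coord hJ :=
        mapIdeal_injective ((isHilbMap_ucoord E).push f) (h1.trans (eq_mapIdeal hJ))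
      refine uring_algHom_ext E fun r i => ?_
      rw [classify_gen, ← h2]
      rfl

open Algebra in
theorem finiteType_uring [hR : Algebra.FiniteType k R] : Algebra.FiniteType k (URing (k := k) E) := by
  classical
  obtain ⟨t, ht⟩ := hR.out
  set G : Finset (URing (k := k) E) :=
    ((t ×ˢ Finset.univ) ×ˢ Finset.univ).image (fun x => gen E (x.1.1 * E x.1.2) x.2) ∪
      Finset.univ.image (fun i => gen E (1 : R) i) with hG
  refine ⟨⟨G, _root_.eq_top_iff.mpr ?_⟩⟩
  have hmul : ∀ (x s : R), (∀ l i, gen E (x * E l) i ∈ adjoin k (G : Set (URing (k := k) E))) →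
      (∀ i, gen E s i ∈ adjoin k (G : Set (URing (k := k) E))) →
      ∀ i, gen E (x * s) i ∈ adjoin k (G : Set (URing (k := k) E)) := fun x s hx hs i => by
    have h : gen (k := k) E (x * s) i = ∑ l, gen E s l * gen E (x * E l) i := by
      have := congrFun ((isHilbMap_ucoord (k := k) E).apply_mul x s) i
      rw [Finset.sum_apply] at this
      exact this
    rw [h]
    exact sum_mem fun l _ => mul_mem (hs l) (hx l i)
  have hT : ∀ r ∈ adjoin k (t : Set R), ∀ s : R,
      (∀ i, gen E s i ∈ adjoin k (G : Set (URing (k := k) E))) →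
      ∀ i, gen E (r * s) i ∈ adjoin k (G : Set (URing (k := k) E)) := by
    intro r hr
    induction hr using Algebra.adjoin_induction with
    | mem x hx =>
        refine fun s => hmul x s fun l i => Algebra.subset_adjoin ?_
        rw [hG, Finset.coe_union, Finset.coe_image]
        exact Or.inl ⟨((x, l), i), by simp [hx], rfl⟩
    | algebraMap a =>
        intro s hs i
        rw [show algebraMap k R a * s = a • s from (Algebra.smul_def a s).symm,
          ← ucoord_apply, map_smul, Pi.smul_apply, ucoord_apply]
        exact Subalgebra.smul_mem _ (hs i) a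
    | add x y _ _ hx hy =>
        intro s hs i
        rw [add_mul, show gen E (x * s + y * s) i = gen E (x * s) i + gen E (y * s) i from
          congrFun ((ucoord (k := k) E).map_add _ _) i]
        exact add_mem (hx s hs i) (hy s hs i)
    | mul x y _ _ hx hy =>
        intro s hs
        rw [mul_assoc]
        exact hx _ (hy s hs)
  have h1 : ∀ r i, gen E r i ∈ adjoin k (G : Set (URing (k := k) E)) := fun r i => by
    simpa using hT r (ht ▸ Algebra.mem_top) 1
      (fun j => Algebra.subset_adjoin (by
        rw [hG, Finset.coe_union, Finset.coe_image, Finset.coe_image]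
        exact Or.inr ⟨j, by simp, rfl⟩)) i
  rintro z -
  obtain ⟨p, rfl⟩ := umk_surjective E z
  clear ht
  induction p using MvPolynomial.induction_on with
  | C a => rw [← MvPolynomial.algebraMap_eq, AlgHom.commutes]; exact Subalgebra.algebraMap_mem _ _
  | add p q hp hq => rw [map_add]; exact add_mem hp hq
  | mul_X p x hp => rw [map_mul]; exact mul_mem hp (h1 x.1 x.2)

end Fermat.Agent.Jacobian.HilbChart
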