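/-
The chart rings: the universal ring of ideals with given basis of the quotient is finitely
presented, formally smooth, and all such ideals are locally generated by one regular element.
-/
import Fermat.Agent.Jacobian.Core.Targets
import Fermat.Agent.Jacobian.HilbChart.Universal
import Fermat.Agent.Jacobian.HilbChart.Local
import Fermat.Agent.Jacobian.HilbChart.Lift

set_option autoImplicit false

universe u

open TensorProduct

noncomputable section

namespace Fermat.Agent.Jacobian.HilbChart

open Fermat.Agent.Jacobian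

variable {k : Type u} [Field k] [IsAlgClosed k] {R : Type u} [CommRing R] [Algebra k R]
  [IsDedekindDomain R] [Algebra.FiniteType k R] {g : ℕ} {E : Fin g → R}

omit [IsAlgClosed k] [IsDedekindDomain R] in
theorem finiteType_hilbRing (HR : HilbRing (k := k) E) : Algebra.FiniteType k HR.H := by
  have := finiteType_uring (k := k) E
  obtain ⟨φ, hφ, -⟩ := (hilbRing (k := k) E).univ HR.H HR.I HR.isHilb
  refine this.of_surjective φ fun x => ?_
  obtain ⟨ψ, hψ, -⟩ := HR.univ (hilbRing (k := k) E).H _ (hilbRing (k := k) E).isHilb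
  refine ⟨ψ x, ?_⟩
  obtain ⟨ψ₀, -, huni⟩ := HR.univ HR.H HR.I HR.isHilb
  have h1 : φ.comp ψ = AlgHom.id k HR.H := by
    refine (huni (φ.comp ψ) ?_).trans (huni (AlgHom.id k HR.H) ?_).symm
    · have h : Algebra.TensorProduct.map (φ.comp ψ) (AlgHom.id k R) =
          (Algebra.TensorProduct.map φ (AlgHom.id k R)).comp
            (Algebra.TensorProduct.map ψ (AlgHom.id k R)) := by
        rw [← Algebra.TensorProduct.map_comp]; rfl
      dsimp only
      rw [h]
      conv_rhs => rw [← hφ, ← hψ]
      exact (Ideal.map_map _ _).symm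
    · dsimp only
      rw [Algebra.TensorProduct.map_id]
      exact Ideal.map_id _
  exact DFunLike.congr_fun h1 x

theorem nonempty_frame_univ (hR : ¬ IsField R) (HR : HilbRing (k := k) E) :
    Nonempty (Frame HR.H HR.I) :=
  have := finiteType_hilbRing HR
  nonempty_frame_of_finiteType hR HR.isHilb

/-- A frame for every ideal with given basis of the quotient. -/
theorem nonempty_frame_of_isHilb (hR : ¬ IsField R) {B : Type u} [CommRing B] [Algebra k B]
    {J : Ideal (B ⊗[k] R)} (hJ : IsHilb E J) : Nonempty (Frame B J) := by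
  obtain ⟨φ, hφ, -⟩ := (hilbRing (k := k) E).univ B J hJ
  obtain ⟨F⟩ := nonempty_frame_univ hR (hilbRing (k := k) E)
  exact ⟨hφ ▸ F.map φ⟩

theorem locPrincipalRegular_of_isHilb (hR : ¬ IsField R) {B : Type u} [CommRing B] [Algebra k B]
    {J : Ideal (B ⊗[k] R)} (hJ : IsHilb E J) : LocPrincipalRegular J :=
  (nonempty_frame_of_isHilb hR hJ).some.locPrincipalRegular

theorem formallySmooth_hilbRing (hR : ¬ IsField R) (HR : HilbRing (k := k) E) :
    Algebra.FormallySmooth k HR.H := by
  refine Algebra.FormallySmooth.of_comp_surjective fun B _ _ N hN ψ₁ => ?_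
  have h₁ := isHilb_map ψ₁ HR.isHilb
  obtain ⟨F⟩ := nonempty_frame_of_isHilb hR h₁
  obtain ⟨J, hJ, hJmap⟩ := exists_isHilb_lift (Ideal.Quotient.mkₐ k N)
    (Ideal.Quotient.mkₐ_surjective k N)
    (by rw [show RingHom.ker (Ideal.Quotient.mkₐ k N) = N from Ideal.mk_ker]; exact hN) h₁ F
  obtain ⟨ψ, hψ, -⟩ := HR.univ B J hJ
  obtain ⟨ψ₀, -, huni⟩ := HR.univ (B ⧸ N) _ h₁
  refine ⟨ψ, (huni ((Ideal.Quotient.mkₐ k N).comp ψ) ?_).trans (huni ψ₁ rfl).symm⟩
  have h : Algebra.TensorProduct.map ((Ideal.Quotient.mkₐ k N).comp ψ) (AlgHom.id k R) =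
      (Algebra.TensorProduct.map (Ideal.Quotient.mkₐ k N) (AlgHom.id k R)).comp
        (Algebra.TensorProduct.map ψ (AlgHom.id k R)) := by
    rw [← Algebra.TensorProduct.map_comp]; rfl
  dsimp only
  rw [h]
  conv_rhs => rw [← hJmap, ← hψ]
  exact (Ideal.map_map _ _).symm

theorem hilbProperty (k : Type u) [Field k] : Fermat.Agent.Jacobian.HilbProperty k := by
  intro _ R _ _ _ _ hR g E
  refine ⟨hilbRing (k := k) E, ?_, formallySmooth_hilbRing hR _,
    fun B _ _ J hJ => locPrincipalRegular_of_isHilb hR hJ⟩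
  have := finiteType_hilbRing (hilbRing (k := k) E)
  exact Algebra.FinitePresentation.of_finiteType.mp this

end Fermat.Agent.Jacobian.HilbChart
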